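/-
Cluster L (S41, level raising), work package NEW-A.  Owner: helper63.

Definitions on cusp forms of level `N q` (`q` prime to `N`):
* `trLin N q k`  : the trace `S_k(Γ₀(N q)) → S_k(Γ₀(N))` (Mathlib's `CuspForm.trace`), `ℂ`-linear;
* `alInt N q`    : the Atkin–Lehner matrix `w_q = !![q x, y; N q, q]`, `q x - N y = gcd(q, N)`,
                   `alMat N q` its image in `GL₂(ℝ)`;
* `wLin N hqN k` : the Atkin–Lehner operator `h ↦ h ∣[k] w_q` on `S_k(Γ₀(N q))`;
* `sNew N hqN`   : the `q`-new subspace `ker Tr ⊓ ker (Tr ∘ W)` of `S_2(Γ₀(N q))`.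
-/
import Mathlib
import Fermat.Prelude.Def_ModularForm_HeckeOperatorForms
import Fermat.Agent.L.Degen.IntMat
import Fermat.Agent.L.Defs

set_option autoImplicit false
set_option linter.unusedSimpArgs false
set_option linter.style.haveILetI false

noncomputable section

namespace Fermat.Agent.LNew

open CongruenceSubgroup UpperHalfPlane ModularForm Matrix.SpecialLinearGroup ConjAct Pointwise
open Fermat.Agent.LDeg
open scoped MatrixGroups ModularForm

/-- `Γ₀(K)` as a subgroup of `GL(2, ℝ)`; this is what the coercion in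
`CuspForm (CongruenceSubgroup.Gamma0 K) k` unfolds to. -/
abbrev GG (K : ℕ) : Subgroup (GL (Fin 2) ℝ) := (Gamma0 K).map (mapGL ℝ)

theorem GG_mul_le (N q : ℕ) : GG (N * q) ≤ GG N :=
  Subgroup.map_mono (Fermat.Agent.L.Gamma0_mul_le N q)

theorem mapGL_mem_GG {K : ℕ} {g : SL(2, ℤ)} : mapGL ℝ g ∈ GG K ↔ g ∈ Gamma0 K := by
  constructor
  · rintro ⟨g', hg', h⟩
    rwa [← mapGL_injective h]
  · intro h
    exact ⟨g, h, rfl⟩

theorem GG_le_SL (K : ℕ) : GG K ≤ 𝒮ℒ := by
  rintro _ ⟨g, -, rfl⟩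
  exact ⟨g, rfl⟩

theorem det_pos_of_mem_GG {K : ℕ} {g : GL (Fin 2) ℝ} (hg : g ∈ GG K) : 0 < (g.det : ℝ) := by
  obtain ⟨g', -, rfl⟩ := hg
  simp

theorem σ_of_mem_GG {K : ℕ} {g : GL (Fin 2) ℝ} (hg : g ∈ GG K) : σ g = .refl ℝ ℂ := by
  rw [σ, if_pos (det_pos_of_mem_GG hg)]

instance instIsFiniteRelIndexGG (N q : ℕ) [NeZero N] [NeZero q] :
    (GG (N * q)).IsFiniteRelIndex (GG N) := by
  have : NeZero (N * q) := ⟨mul_ne_zero (NeZero.ne N) (NeZero.ne q)⟩
  have : (GG (N * q)).IsFiniteRelIndex 𝒮ℒ := inferInstance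
  exact Subgroup.isFiniteRelIndex_of_le_right (GG (N * q)) (GG_le_SL N)

section Trace

variable (N q : ℕ) [NeZero N] [NeZero q] (k : ℤ)

/-- The trace `S_k(Γ₀(N q)) → S_k(Γ₀(N))`, `h ↦ ∑_{r ∈ Γ₀(N q) \ Γ₀(N)} h ∣[k] r`. -/
def trLin : CuspForm (Gamma0 (N * q)) k →ₗ[ℂ] CuspForm (Gamma0 N) k where
  toFun h := CuspForm.trace (GG N) h
  map_add' f g := by
    apply DFunLike.coe_injective
    rw [FunLike.coe_add, CuspForm.coe_trace, CuspForm.coe_trace, CuspForm.coe_trace,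
      ← Finset.sum_add_distrib]
    refine Finset.sum_congr rfl fun c _ => ?_
    induction c using Quotient.inductionOn with
    | h r =>
      simp only [SlashInvariantForm.quotientFunc_mk]
      rw [FunLike.coe_add, SlashAction.add_slash]
  map_smul' c f := by
    apply DFunLike.coe_injective
    rw [FunLike.coe_smul, CuspForm.coe_trace, CuspForm.coe_trace, Finset.smul_sum]
    refine Finset.sum_congr rfl fun d _ => ?_
    induction d using Quotient.inductionOn with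
    | h r =>
      simp only [SlashInvariantForm.quotientFunc_mk]
      rw [FunLike.coe_smul, ModularForm.smul_slash, σ_of_mem_GG (inv_mem r.2)]
      rfl

theorem trLin_apply (h : CuspForm (Gamma0 (N * q)) k) :
    trLin N q k h = CuspForm.trace (GG N) h := rfl

end Trace

section AtkinLehner

variable (N q : ℕ)

/-- Bézout coefficient: `q * alX - N * alY = gcd(q, N)`. -/
def alX : ℤ := Nat.gcdA q N

/-- Bézout coefficient: `q * alX - N * alY = gcd(q, N)`. -/
def alY : ℤ := -Nat.gcdB q N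

theorem al_gcd : (q : ℤ) * alX N q - (N : ℤ) * alY N q = (Nat.gcd q N : ℤ) := by
  rw [alX, alY, Nat.gcd_eq_gcd_ab q N]
  ring

variable {N q} in
theorem al_bezout (hqN : q.Coprime N) : (q : ℤ) * alX N q - (N : ℤ) * alY N q = 1 := by
  rw [al_gcd, hqN]
  rfl

/-- The Atkin–Lehner matrix `w_q = !![q x, y; N q, q]` (integer matrix of determinant
`q * gcd(q, N)`). -/
def alInt : Matrix (Fin 2) (Fin 2) ℤ :=
  !![(q : ℤ) * alX N q, alY N q; (N : ℤ) * q, (q : ℤ)]

theorem det_alInt : (alInt N q).det = (q : ℤ) * (Nat.gcd q N : ℤ) := by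
  rw [alInt, Matrix.det_fin_two_of, ← al_gcd]
  ring

theorem det_alInt_ne_zero [NeZero q] : (alInt N q).det ≠ 0 := by
  rw [det_alInt]
  have h1 : (q : ℤ) ≠ 0 := by exact_mod_cast NeZero.ne q
  have h2 : (Nat.gcd q N : ℤ) ≠ 0 := by
    exact_mod_cast Nat.gcd_ne_zero_left (NeZero.ne q)
  exact mul_ne_zero h1 h2

variable {N q} in
theorem det_alInt_of_coprime (hqN : q.Coprime N) : (alInt N q).det = (q : ℤ) := by
  rw [det_alInt, hqN]
  simp

/-- The Atkin–Lehner matrix `w_q` in `GL₂(ℝ)`. -/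
def alMat [NeZero q] : GL (Fin 2) ℝ := intGL (alInt N q) (det_alInt_ne_zero N q)

theorem alMat_eq [NeZero q] : alMat N q = intGL (alInt N q) (det_alInt_ne_zero N q) := rfl

theorem det_alMat_pos [NeZero q] : 0 < ((alMat N q).det : ℝ) := by
  rw [Matrix.GeneralLinearGroup.val_det_apply, alMat, coe_intGL, ← RingHom.map_det, det_alInt]
  have h1 : 0 < q := Nat.pos_of_ne_zero (NeZero.ne q)
  have h2 : 0 < Nat.gcd q N := Nat.gcd_pos_of_pos_left _ h1
  simp only [eq_intCast, Int.cast_mul, Int.cast_natCast]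
  positivity

theorem σ_alMat [NeZero q] : σ (alMat N q) = .refl ℝ ℂ := by
  rw [σ, if_pos (det_alMat_pos N q)]

end AtkinLehner

section Normalise

variable {N q : ℕ}

theorem SL_det_eq (g : SL(2, ℤ)) : g 0 0 * g 1 1 - g 0 1 * g 1 0 = 1 := by
  have h := g.det_coe
  rwa [Matrix.det_fin_two] at h

/-- If `w * g = M * w` with `det w ≠ 0` and `det g = 1`, then `det M = 1`. -/
theorem det_eq_one_of_mul_eq {w g M : Matrix (Fin 2) (Fin 2) ℤ} (hw : w.det ≠ 0)
    (hg : g.det = 1) (h : w * g = M * w) : M.det = 1 := by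
  have h1 := congrArg Matrix.det h
  rw [Matrix.det_mul, Matrix.det_mul, hg, mul_one] at h1
  have h2 : M.det * w.det = 1 * w.det := by rw [one_mul, ← h1]
  exact mul_right_cancel₀ hw h2

/-- `w_q` normalises `Γ₀(N q)`: `w g = g' w`. -/
theorem alInt_mul_comm [NeZero q] (hqN : q.Coprime N) (g : SL(2, ℤ)) (hg : g ∈ Gamma0 (N * q)) :
    ∃ g' : SL(2, ℤ), g' ∈ Gamma0 (N * q) ∧
      alInt N q * (g : Matrix (Fin 2) (Fin 2) ℤ) = (g' : Matrix (Fin 2) (Fin 2) ℤ) * alInt N q := by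
  obtain ⟨c₀, hc₀⟩ := Fermat.Agent.L.dvd_of_mem_Gamma0 hg
  push_cast at hc₀
  have hbez := al_bezout hqN
  set x := alX N q with hx
  set y := alY N q with hy
  have hdet := SL_det_eq g
  set a := g 0 0 with ha
  set b := g 0 1 with hb
  set d := g 1 1 with hd
  let M : Matrix (Fin 2) (Fin 2) ℤ :=
    !![q * x * a + y * N * q * c₀ - N * q * x * b - N * y * d,
       -(x * a * y) - y ^ 2 * N * c₀ + q * x ^ 2 * b + x * y * d;
       N * q * (a + q * c₀ - N * b - d),
       -(N * a * y) - N * q * c₀ * y + N * q * b * x + q * d * x]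
  have hmul : alInt N q * (g : Matrix (Fin 2) (Fin 2) ℤ) = M * alInt N q := by
    ext i j
    fin_cases i <;> fin_cases j
    · simp only [alInt, M, Matrix.mul_apply, Fin.sum_univ_two, Fin.zero_eta, Fin.isValue,
        Matrix.of_apply, Matrix.cons_val', Matrix.cons_val_zero, Matrix.cons_val_one, hc₀,
        ← hx, ← hy, ← ha, ← hb, ← hd]
      linear_combination (-(q * x * a + y * (N * q * c₀))) * hbez
    · simp only [alInt, M, Matrix.mul_apply, Fin.sum_univ_two, Fin.zero_eta, Fin.mk_one,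
        Fin.isValue, Matrix.of_apply, Matrix.cons_val', Matrix.cons_val_zero, Matrix.cons_val_one,
        hc₀, ← hx, ← hy, ← ha, ← hb, ← hd]
      linear_combination (-(q * x * b + y * d)) * hbez
    · simp only [alInt, M, Matrix.mul_apply, Fin.sum_univ_two, Fin.zero_eta, Fin.mk_one,
        Fin.isValue, Matrix.of_apply, Matrix.cons_val', Matrix.cons_val_zero, Matrix.cons_val_one,
        hc₀, ← hx, ← hy, ← ha, ← hb, ← hd]
      linear_combination (-(N * q * a + q * (N * q * c₀))) * hbez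
    · simp only [alInt, M, Matrix.mul_apply, Fin.sum_univ_two, Fin.mk_one, Fin.isValue,
        Matrix.of_apply, Matrix.cons_val', Matrix.cons_val_zero, Matrix.cons_val_one, hc₀,
        ← hx, ← hy, ← ha, ← hb, ← hd]
      linear_combination (-(N * q * b + q * d)) * hbez
  have hM : M.det = 1 := det_eq_one_of_mul_eq (det_alInt_ne_zero N q) g.det_coe hmul
  refine ⟨⟨M, hM⟩, ?_, hmul⟩
  apply Fermat.Agent.L.mem_Gamma0_of_dvd
  show ((N * q : ℕ) : ℤ) ∣ M 1 0
  simp only [M, Matrix.of_apply, Matrix.cons_val', Matrix.cons_val_zero, Matrix.cons_val_one]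
  push_cast
  exact Dvd.intro _ rfl

/-- `w_q` normalises `Γ₀(N q)`, in `GL₂(ℝ)`: `w g = g' w`. -/
theorem alMat_mul_comm [NeZero q] (hqN : q.Coprime N) (g : SL(2, ℤ)) (hg : g ∈ Gamma0 (N * q)) :
    ∃ g' : SL(2, ℤ), g' ∈ Gamma0 (N * q) ∧ alMat N q * mapGL ℝ g = mapGL ℝ g' * alMat N q := by
  obtain ⟨g', hg', h⟩ := alInt_mul_comm hqN g hg
  refine ⟨g', hg', ?_⟩
  rw [mapGL_eq_intGL, mapGL_eq_intGL, alMat_eq]
  exact (intGL_mul_eq_mul_iff _ _ _ _).mpr h

/-- `Γ₀(N q) ⊆ w_q⁻¹ Γ₀(N q) w_q`. -/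
theorem GG_le_conj_alMat [NeZero q] (hqN : q.Coprime N) :
    GG (N * q) ≤ toConjAct (alMat N q)⁻¹ • GG (N * q) := by
  rintro γ ⟨g, hg, rfl⟩
  rw [map_inv, Subgroup.mem_inv_pointwise_smul_iff, toConjAct_smul]
  obtain ⟨g', hg'mem, hg'⟩ := alMat_mul_comm hqN g hg
  rw [hg', mul_inv_cancel_right]
  exact ⟨g', hg'mem, rfl⟩

end Normalise

section WLin

variable (N : ℕ) {q : ℕ} [NeZero q] (hqN : q.Coprime N) (k : ℤ)

/-- The Atkin–Lehner operator `W_q : h ↦ h ∣[k] w_q` on `S_k(Γ₀(N q))`. -/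
def wLin : CuspForm (Gamma0 (N * q)) k →ₗ[ℂ] CuspForm (Gamma0 (N * q)) k where
  toFun h :=
    { toFun := ⇑h ∣[k] alMat N q
      slash_action_eq' := fun γ hγ =>
        (CuspForm.translate h (alMat N q)).slash_action_eq' γ (GG_le_conj_alMat hqN hγ)
      holo' := (CuspForm.translate h (alMat N q)).holo'
      zero_at_cusps' := fun hc =>
        (CuspForm.translate h (alMat N q)).zero_at_cusps' (hc.mono (GG_le_conj_alMat hqN)) }
  map_add' f g := DFunLike.coe_injective <|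
    show (⇑(f + g) : ℍ → ℂ) ∣[k] alMat N q = ⇑f ∣[k] alMat N q + ⇑g ∣[k] alMat N q by
      rw [FunLike.coe_add, SlashAction.add_slash]
  map_smul' c f := DFunLike.coe_injective <|
    show (⇑(c • f) : ℍ → ℂ) ∣[k] alMat N q = c • (⇑f ∣[k] alMat N q) by
      rw [FunLike.coe_smul, ModularForm.smul_slash, σ_alMat]
      rfl

@[simp] theorem coe_wLin (h : CuspForm (Gamma0 (N * q)) k) :
    (⇑(wLin N hqN k h) : ℍ → ℂ) = ⇑h ∣[k] alMat N q := rfl

end WLin

section SNew

variable (N : ℕ) {q : ℕ} [NeZero N] [NeZero q] (hqN : q.Coprime N)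

/-- The `q`-new subspace of `S₂(Γ₀(N q))`: `{h : Tr h = 0 = Tr (W_q h)}`. -/
def sNew : Submodule ℂ (CuspForm (Gamma0 (N * q)) 2) :=
  LinearMap.ker (trLin N q 2) ⊓ LinearMap.ker ((trLin N q 2).comp (wLin N hqN 2))

theorem mem_sNew {h : CuspForm (Gamma0 (N * q)) 2} :
    h ∈ sNew N hqN ↔ trLin N q 2 h = 0 ∧ trLin N q 2 (wLin N hqN 2 h) = 0 := by
  rw [sNew, Submodule.mem_inf, LinearMap.mem_ker, LinearMap.mem_ker, LinearMap.comp_apply]

end SNew

end Fermat.Agent.LNew
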