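/-
Cluster L (S41, level raising), work package NEW-A.  Owner: helper63.

Explicit right coset representatives of `Γ₀(N q) \ Γ₀(N)` (`q` prime, `q ∤ N`), indexed by
`ℙ¹(𝔽_q) = OnePoint (ZMod q)`:
  `trRep ∞ = 1`,  `trRep j = !![x, x j + y; N, N j + q]`   (`q x - N y = 1`),
and the resulting formula for the trace:
  `⇑(trLin N q k h) = ∑ i, h ∣[k] mapGL ℝ (trRepSL hqN i)`.
Moreover `w_q * !![1, j; 0, q] = q • trRep j`.
-/
import Fermat.Agent.L.New.Defs

set_option autoImplicit false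
set_option linter.unusedSimpArgs false
set_option linter.style.haveILetI false
set_option linter.unusedSectionVars false

noncomputable section

namespace Fermat.Agent.LNew

open CongruenceSubgroup UpperHalfPlane ModularForm Matrix.SpecialLinearGroup ConjAct Pointwise
open Fermat.Agent.LDeg
open scoped MatrixGroups ModularForm

section General

variable {𝒢 ℋ : Subgroup (GL (Fin 2) ℝ)} {F : Type*} [FunLike F ℍ ℂ] {k : ℤ}

/-- The trace as a sum over any system of representatives of `ℋ ⧸ 𝒢`. -/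
theorem coe_trace_eq_sum [𝒢.IsFiniteRelIndex ℋ] [CuspFormClass F 𝒢 k] (f : F) {ι : Type*}
    [Fintype ι] (r : ι → ℋ)
    (hr : Function.Bijective (fun i => (QuotientGroup.mk (r i) : ℋ ⧸ 𝒢.subgroupOf ℋ))) :
    (⇑(CuspForm.trace ℋ f) : ℍ → ℂ) = ∑ i, (f : ℍ → ℂ) ∣[k] ((r i : GL (Fin 2) ℝ))⁻¹ := by
  rw [CuspForm.coe_trace]
  letI := Fintype.ofFinite (ℋ ⧸ 𝒢.subgroupOf ℋ)
  symm
  refine Fintype.sum_bijective _ hr _ _ (fun i => ?_)
  rfl

end General

section SLentries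

theorem SL_mul_inv_apply_one_zero (A B : SL(2, ℤ)) :
    (A * B⁻¹) 1 0 = A 1 0 * B 1 1 - A 1 1 * B 1 0 := by
  rw [Matrix.SpecialLinearGroup.coe_mul, Matrix.SpecialLinearGroup.coe_inv,
    Matrix.adjugate_fin_two, Matrix.mul_apply, Fin.sum_univ_two]
  simp
  ring

theorem SL_mul_apply_one_zero (A B : SL(2, ℤ)) :
    (A * B) 1 0 = A 1 0 * B 0 0 + A 1 1 * B 1 0 := by
  rw [Matrix.SpecialLinearGroup.coe_mul, Matrix.mul_apply, Fin.sum_univ_two]

end SLentries

section Reps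

variable (N q : ℕ)

/-- Representatives of `Γ₀(N q) \ Γ₀(N)`. -/
def trRep (i : OnePoint (ZMod q)) : Matrix (Fin 2) (Fin 2) ℤ :=
  i.elim 1 (fun j => !![alX N q, alX N q * (j.val : ℤ) + alY N q;
                        (N : ℤ), (N : ℤ) * (j.val : ℤ) + (q : ℤ)])

@[simp] theorem trRep_infty : trRep N q OnePoint.infty = 1 := rfl

@[simp] theorem trRep_coe (j : ZMod q) :
    trRep N q (j : OnePoint (ZMod q)) =
      !![alX N q, alX N q * (j.val : ℤ) + alY N q; (N : ℤ), (N : ℤ) * (j.val : ℤ) + (q : ℤ)] :=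
  rfl

variable {N q}

theorem det_trRep (hqN : q.Coprime N) (i : OnePoint (ZMod q)) : (trRep N q i).det = 1 := by
  induction i using OnePoint.rec with
  | infty => simp
  | coe j =>
    rw [trRep_coe, Matrix.det_fin_two_of]
    linear_combination al_bezout hqN

/-- The representatives as elements of `SL(2, ℤ)`. -/
def trRepSL (hqN : q.Coprime N) (i : OnePoint (ZMod q)) : SL(2, ℤ) :=
  ⟨trRep N q i, det_trRep hqN i⟩

@[simp] theorem coe_trRepSL (hqN : q.Coprime N) (i : OnePoint (ZMod q)) :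
    ((trRepSL hqN i : SL(2, ℤ)) : Matrix (Fin 2) (Fin 2) ℤ) = trRep N q i := rfl

theorem trRepSL_infty (hqN : q.Coprime N) : trRepSL hqN OnePoint.infty = 1 := by
  apply Subtype.ext
  rfl

theorem trRepSL_one_zero (hqN : q.Coprime N) (j : ZMod q) :
    (trRepSL hqN (j : OnePoint (ZMod q))) 1 0 = (N : ℤ) := by
  show trRep N q (j : OnePoint (ZMod q)) 1 0 = _
  simp

theorem trRepSL_one_one (hqN : q.Coprime N) (j : ZMod q) :
    (trRepSL hqN (j : OnePoint (ZMod q))) 1 1 = (N : ℤ) * (j.val : ℤ) + (q : ℤ) := by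
  show trRep N q (j : OnePoint (ZMod q)) 1 1 = _
  simp

theorem trRepSL_mem (hqN : q.Coprime N) (i : OnePoint (ZMod q)) : trRepSL hqN i ∈ Gamma0 N := by
  apply Fermat.Agent.L.mem_Gamma0_of_dvd
  induction i using OnePoint.rec with
  | infty => rw [trRepSL_infty]; simp
  | coe j => rw [trRepSL_one_zero]

end Reps

section Distinct

variable {N q : ℕ} [NeZero N] [Fact q.Prime]

theorem not_q_dvd_N_int (hqN : q.Coprime N) : ¬ (q : ℤ) ∣ (N : ℤ) := by
  intro h
  have h1 : q ∣ N := by exact_mod_cast h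
  have h2 : q ∣ Nat.gcd q N := Nat.dvd_gcd dvd_rfl h1
  rw [hqN] at h2
  exact (Fact.out : q.Prime).one_lt.ne' (Nat.dvd_one.mp h2)

theorem q_dvd_of_Nq_dvd_N_mul {z : ℤ} (h : ((N * q : ℕ) : ℤ) ∣ (N : ℤ) * z) : (q : ℤ) ∣ z := by
  have hN : (N : ℤ) ≠ 0 := by exact_mod_cast NeZero.ne N
  obtain ⟨t, ht⟩ := h
  push_cast at ht
  refine ⟨t, ?_⟩
  apply mul_left_cancel₀ hN
  rw [ht]; ring

theorem Nq_dvd_N_mul {z : ℤ} (h : (q : ℤ) ∣ z) : ((N * q : ℕ) : ℤ) ∣ (N : ℤ) * z := by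
  push_cast
  exact mul_dvd_mul_left _ h

theorem not_q_dvd_one : ¬ (q : ℤ) ∣ 1 := by
  intro h
  have h1 : q ∣ 1 := by exact_mod_cast h
  exact (Fact.out : q.Prime).one_lt.ne' (Nat.dvd_one.mp h1)

/-- **Distinctness** of the cosets `Γ₀(N q) trRep i`. -/
theorem trRepSL_distinct (hqN : q.Coprime N) (i i' : OnePoint (ZMod q))
    (h : trRepSL hqN i * (trRepSL hqN i')⁻¹ ∈ Gamma0 (N * q)) : i = i' := by
  have h1 := Fermat.Agent.L.dvd_of_mem_Gamma0 h
  rw [SL_mul_inv_apply_one_zero] at h1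
  have hqp : Prime (q : ℤ) := Nat.prime_iff_prime_int.mp Fact.out
  induction i using OnePoint.rec with
  | infty =>
    induction i' using OnePoint.rec with
    | infty => rfl
    | coe j' =>
      exfalso
      rw [trRepSL_infty, trRepSL_one_zero] at h1
      have h2 : ((N * q : ℕ) : ℤ) ∣ (N : ℤ) * (-1) := by
        convert h1 using 1
        simp
      have := q_dvd_of_Nq_dvd_N_mul h2
      rw [dvd_neg] at this
      exact not_q_dvd_one this
  | coe j =>
    induction i' using OnePoint.rec with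
    | infty =>
      exfalso
      rw [trRepSL_infty, trRepSL_one_zero] at h1
      have h2 : ((N * q : ℕ) : ℤ) ∣ (N : ℤ) * 1 := by
        convert h1 using 1
        simp
      exact not_q_dvd_one (q_dvd_of_Nq_dvd_N_mul h2)
    | coe j' =>
      rw [trRepSL_one_zero, trRepSL_one_zero, trRepSL_one_one, trRepSL_one_one] at h1
      have h2 : ((N * q : ℕ) : ℤ) ∣ (N : ℤ) * ((N : ℤ) * ((j'.val : ℤ) - (j.val : ℤ))) := by
        convert h1 using 1
        ring
      have h3 := q_dvd_of_Nq_dvd_N_mul h2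
      have h4 : (q : ℤ) ∣ (j'.val : ℤ) - (j.val : ℤ) :=
        (hqp.dvd_or_dvd h3).resolve_left (not_q_dvd_N_int hqN)
      have h5 : (((j'.val : ℤ) - (j.val : ℤ) : ℤ) : ZMod q) = 0 :=
        (ZMod.intCast_zmod_eq_zero_iff_dvd _ _).mpr h4
      push_cast at h5
      rw [ZMod.natCast_zmod_val, ZMod.natCast_zmod_val] at h5
      rw [sub_eq_zero.mp h5]

/-- **Existence**: every element of `Γ₀(N)` lies in some coset `Γ₀(N q) (trRep i)⁻¹`...
more precisely `trRep i * g ∈ Γ₀(N q)` for some `i`. -/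
theorem exists_trRepSL_mul_mem (hqN : q.Coprime N) (g : SL(2, ℤ)) (hg : g ∈ Gamma0 N) :
    ∃ i : OnePoint (ZMod q), trRepSL hqN i * g ∈ Gamma0 (N * q) := by
  obtain ⟨c₀, hc₀⟩ := Fermat.Agent.L.dvd_of_mem_Gamma0 hg
  by_cases hq : (q : ℤ) ∣ c₀
  · refine ⟨OnePoint.infty, ?_⟩
    rw [trRepSL_infty, one_mul]
    apply Fermat.Agent.L.mem_Gamma0_of_dvd
    rw [hc₀]
    exact Nq_dvd_N_mul hq
  · have hc0 : ((c₀ : ℤ) : ZMod q) ≠ 0 := fun h => hq ((ZMod.intCast_zmod_eq_zero_iff_dvd _ _).mp h)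
    have hN0 : ((N : ℕ) : ZMod q) ≠ 0 := by
      intro h
      have : (((N : ℕ) : ℤ) : ZMod q) = 0 := by exact_mod_cast h
      exact not_q_dvd_N_int hqN ((ZMod.intCast_zmod_eq_zero_iff_dvd _ _).mp this)
    set j : ZMod q := -((g 0 0 : ℤ) : ZMod q) * (((N : ℕ) : ZMod q) * ((c₀ : ℤ) : ZMod q))⁻¹ with hj
    refine ⟨(j : OnePoint (ZMod q)), ?_⟩
    apply Fermat.Agent.L.mem_Gamma0_of_dvd
    rw [SL_mul_apply_one_zero, trRepSL_one_zero, trRepSL_one_one, hc₀]
    have h2 : (q : ℤ) ∣ g 0 0 + ((N : ℤ) * (j.val : ℤ) + (q : ℤ)) * c₀ := by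
      rw [← ZMod.intCast_zmod_eq_zero_iff_dvd]
      push_cast
      rw [ZMod.natCast_zmod_val, ZMod.natCast_self, add_zero, hj]
      field_simp
      ring
    convert Nq_dvd_N_mul (N := N) h2 using 1
    ring


/-- The representatives `(trRep i)⁻¹` as elements of `Γ₀(N) ≤ GL₂(ℝ)`. -/
def trRepGG (hqN : q.Coprime N) (i : OnePoint (ZMod q)) : GG N :=
  ⟨(mapGL ℝ (trRepSL hqN i))⁻¹, inv_mem (mapGL_mem_GG.mpr (trRepSL_mem hqN i))⟩

theorem trRepGG_bijective (hqN : q.Coprime N) :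
    Function.Bijective (fun i : OnePoint (ZMod q) =>
      (QuotientGroup.mk (trRepGG hqN i) : GG N ⧸ (GG (N * q)).subgroupOf (GG N))) := by
  constructor
  · intro i i' h
    rw [QuotientGroup.eq, Subgroup.mem_subgroupOf] at h
    have h1 : ((↑((trRepGG hqN i)⁻¹ * trRepGG hqN i') : GL (Fin 2) ℝ)) =
        mapGL ℝ (trRepSL hqN i * (trRepSL hqN i')⁻¹) := by
      simp [trRepGG]
    rw [h1, mapGL_mem_GG] at h
    exact trRepSL_distinct hqN i i' h
  · intro c
    induction c using QuotientGroup.induction_on with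
    | H γ =>
      obtain ⟨γ, g, hg, rfl⟩ := γ
      obtain ⟨i, hi⟩ := exists_trRepSL_mul_mem hqN g hg
      refine ⟨i, ?_⟩
      show (QuotientGroup.mk (trRepGG hqN i) : GG N ⧸ (GG (N * q)).subgroupOf (GG N)) = _
      rw [QuotientGroup.eq, Subgroup.mem_subgroupOf]
      have h1 : ((↑((trRepGG hqN i)⁻¹ * ⟨mapGL ℝ g, ⟨g, hg, rfl⟩⟩ : GG N) : GL (Fin 2) ℝ)) =
          mapGL ℝ (trRepSL hqN i * g) := by
        simp [trRepGG]
      rw [h1, mapGL_mem_GG]
      exact hi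

/-- **The trace through explicit representatives.** -/
theorem coe_trLin_eq_sum (hqN : q.Coprime N) (k : ℤ) (h : CuspForm (Gamma0 (N * q)) k) :
    (⇑(trLin N q k h) : ℍ → ℂ) =
      ∑ i : OnePoint (ZMod q), (⇑h : ℍ → ℂ) ∣[k] mapGL ℝ (trRepSL hqN i) := by
  rw [trLin_apply, coe_trace_eq_sum h (trRepGG hqN) (trRepGG_bijective hqN)]
  refine Finset.sum_congr rfl fun i _ => ?_
  simp [trRepGG]

end Distinct

end Fermat.Agent.LNew
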