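/-
Cluster L (S41, level raising), work package NEW-A.  Owner: helper63.

Identities on `S₂(Γ₀(N q))` (`q` prime, `q ∤ N`):
* `wLin_wLin`        : `W_q (W_q h) = h`;
* `coe_trLin_eq`     : `Tr h = h + U_q (W_q h)` (as functions on `ℍ`);
* `heckeU_eq_neg_wLin_of_mem_sNew` : `U_q h = - W_q h` for `h ∈ S_new`;
* `heckeU_heckeU_of_mem_sNew`      : `U_q (U_q h) = h` for `h ∈ S_new`;
* `wLin_mem_sNew`, `heckeULin_mem_sNew_self` : `S_new` is stable under `W_q` and `U_q`.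
-/
import Fermat.Agent.L.New.Cosets

set_option autoImplicit false
set_option linter.unusedSimpArgs false
set_option linter.style.haveILetI false
set_option linter.unusedSectionVars false

noncomputable section

namespace Fermat.Agent.LNew

open CongruenceSubgroup UpperHalfPlane ModularForm Matrix.SpecialLinearGroup ConjAct Pointwise
open Fermat.Agent.LDeg
open scoped MatrixGroups ModularForm
open P2MW.S_ModularForm_heckeT_slash_eq_self_of_mem_Gamma0.ModularForm.HeckeSlashInvariance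

section Scalar

/-- The scalar integer matrix `n • 1`. -/
def scalInt (n : ℕ) : Matrix (Fin 2) (Fin 2) ℤ := !![(n : ℤ), 0; 0, (n : ℤ)]

theorem det_scalInt (n : ℕ) : (scalInt n).det = (n : ℤ) ^ 2 := by
  rw [scalInt, Matrix.det_fin_two_of]; ring

theorem det_scalInt_ne_zero (n : ℕ) [NeZero n] : (scalInt n).det ≠ 0 := by
  rw [det_scalInt]
  exact pow_ne_zero _ (by exact_mod_cast NeZero.ne n)

/-- The scalar matrix `n • 1` in `GL₂(ℝ)`. -/
def scalGL (n : ℕ) [NeZero n] : GL (Fin 2) ℝ := intGL (scalInt n) (det_scalInt_ne_zero n)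

theorem val_scalGL (n : ℕ) [NeZero n] :
    ((scalGL n : GL (Fin 2) ℝ) : Matrix (Fin 2) (Fin 2) ℝ) = !![(n : ℝ), 0; 0, (n : ℝ)] := by
  rw [scalGL, coe_intGL, scalInt]
  ext i j
  fin_cases i <;> fin_cases j <;> simp

theorem det_scalGL (n : ℕ) [NeZero n] : ((scalGL n).det : ℝ) = (n : ℝ) ^ 2 := by
  rw [Matrix.GeneralLinearGroup.val_det_apply, val_scalGL, Matrix.det_fin_two_of]
  ring

theorem det_scalGL_pos (n : ℕ) [NeZero n] : 0 < ((scalGL n).det : ℝ) := by
  rw [det_scalGL]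
  have : (n : ℝ) ≠ 0 := by exact_mod_cast NeZero.ne n
  positivity

/-- Scalar matrices act trivially in weight `2`. -/
theorem slash_scalGL (n : ℕ) [NeZero n] (f : ℍ → ℂ) : f ∣[(2 : ℤ)] scalGL n = f := by
  have hn : (n : ℂ) ≠ 0 := by exact_mod_cast NeZero.ne n
  have hnR : (n : ℝ) ≠ 0 := by exact_mod_cast NeZero.ne n
  funext τ
  have hσ : σ (scalGL n) = .refl ℝ ℂ := by rw [σ, if_pos (det_scalGL_pos n)]
  have hden : denom (scalGL n) τ = n := by
    simp [denom, val_scalGL]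
  have hsmul : scalGL n • τ = τ := by
    apply UpperHalfPlane.ext
    rw [UpperHalfPlane.coe_smul_of_det_pos (det_scalGL_pos n)]
    simp [num, denom, val_scalGL]
    field_simp
  rw [ModularForm.slash_apply, hσ, det_scalGL, hden, hsmul]
  simp only [ContinuousAlgEquiv.refl_apply]
  have : |((n : ℝ) ^ 2)| = (n : ℝ) ^ 2 := abs_of_nonneg (by positivity)
  rw [this]
  push_cast
  rw [zpow_one, mul_assoc]
  have h2 : ((n : ℂ) ^ 2) * ((n : ℂ) ^ (-2 : ℤ)) = 1 := by
    rw [zpow_neg, show ((n : ℂ) ^ (2 : ℤ)) = (n : ℂ) ^ 2 by norm_cast]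
    exact mul_inv_cancel₀ (pow_ne_zero _ hn)
  rw [h2, mul_one]

end Scalar

section Square

variable {N q : ℕ} [NeZero q]

/-- `w_q ^ 2 = q • γ₁` with `γ₁ ∈ Γ₀(N q)`. -/
theorem alInt_mul_self (hqN : q.Coprime N) :
    ∃ g : SL(2, ℤ), g ∈ Gamma0 (N * q) ∧
      alInt N q * alInt N q = scalInt q * (g : Matrix (Fin 2) (Fin 2) ℤ) := by
  have hbez := al_bezout hqN
  set x := alX N q with hx
  set y := alY N q with hy
  let M : Matrix (Fin 2) (Fin 2) ℤ :=
    !![q * x ^ 2 + N * y, y * (x + 1); N * q * (x + 1), N * y + q]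
  have hM : M.det = 1 := by
    simp only [M, Matrix.det_fin_two_of]
    linear_combination (q * x - N * y + 1) * hbez
  refine ⟨⟨M, hM⟩, ?_, ?_⟩
  · apply Fermat.Agent.L.mem_Gamma0_of_dvd
    show ((N * q : ℕ) : ℤ) ∣ M 1 0
    simp only [M, Matrix.of_apply, Matrix.cons_val', Matrix.cons_val_zero, Matrix.cons_val_one]
    push_cast
    exact Dvd.intro _ rfl
  · show alInt N q * alInt N q = scalInt q * M
    ext i j
    fin_cases i <;> fin_cases j <;>
      simp only [alInt, scalInt, M, Matrix.mul_apply, Fin.sum_univ_two, Fin.zero_eta, Fin.mk_one,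
        Fin.isValue, Matrix.of_apply, Matrix.cons_val', Matrix.cons_val_zero, Matrix.cons_val_one,
        ← hx, ← hy] <;> ring

theorem alMat_mul_self (hqN : q.Coprime N) :
    ∃ g : SL(2, ℤ), g ∈ Gamma0 (N * q) ∧ alMat N q * alMat N q = scalGL q * mapGL ℝ g := by
  obtain ⟨g, hg, h⟩ := alInt_mul_self hqN
  refine ⟨g, hg, ?_⟩
  rw [mapGL_eq_intGL, alMat_eq, scalGL]
  exact (intGL_mul_eq_mul_iff _ _ _ _).mpr h

/-- `W_q` is an involution in weight `2`. -/
theorem wLin_wLin (hqN : q.Coprime N) (h : CuspForm (Gamma0 (N * q)) 2) :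
    wLin N hqN 2 (wLin N hqN 2 h) = h := by
  apply DFunLike.coe_injective
  obtain ⟨g, hg, hmul⟩ := alMat_mul_self hqN
  rw [coe_wLin, coe_wLin, ← SlashAction.slash_mul, hmul, SlashAction.slash_mul, slash_scalGL]
  exact SlashInvariantFormClass.slash_action_eq h _ (mapGL_mem_GG.mpr hg)

end Square

section TraceFormula

variable {N q : ℕ} [NeZero N] [Fact q.Prime]

theorem sum_onePoint {M : Type*} [AddCommMonoid M] {X : Type*} [Fintype X]
    (F : OnePoint X → M) : ∑ i : OnePoint X, F i = F OnePoint.infty + ∑ x : X, F (x : OnePoint X) :=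
  Fintype.sum_option F

/-- `w_q * !![1, j; 0, q] = q • trRep j`. -/
theorem alInt_mul_heckeInt (j : ZMod q) :
    alInt N q * heckeInt q (j : OnePoint (ZMod q)) = scalInt q * trRep N q (j : OnePoint (ZMod q)) := by
  rw [heckeInt_coe, trRep_coe]
  ext a b
  fin_cases a <;> fin_cases b <;>
    simp only [alInt, scalInt, Matrix.mul_apply, Fin.sum_univ_two, Fin.zero_eta, Fin.mk_one,
      Fin.isValue, Matrix.of_apply, Matrix.cons_val', Matrix.cons_val_zero, Matrix.cons_val_one] <;>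
    ring

theorem alMat_mul_heckeMatrix (hqN : q.Coprime N) (j : ZMod q) :
    alMat N q * heckeMatrix q j.val = scalGL q * mapGL ℝ (trRepSL hqN (j : OnePoint (ZMod q))) := by
  have hq0 : q ≠ 0 := (Fact.out : q.Prime).ne_zero
  rw [← heckeRep_coe, heckeRep_eq_intGL hq0, mapGL_eq_intGL, alMat_eq, scalGL]
  exact (intGL_mul_eq_mul_iff _ _ _ _).mpr (alInt_mul_heckeInt j)

/-- **`Tr h = h + U_q (W_q h)`** in weight `2`. -/
theorem coe_trLin_eq (hqN : q.Coprime N) (h : CuspForm (Gamma0 (N * q)) 2) :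
    (⇑(trLin N q 2 h) : ℍ → ℂ) = ⇑h + heckeU 2 q (⇑(wLin N hqN 2 h)) := by
  rw [coe_trLin_eq_sum hqN, sum_onePoint, heckeU_eq_sum_zmod, coe_wLin]
  congr 1
  · rw [trRepSL_infty, map_one, SlashAction.slash_one]
  · refine Finset.sum_congr rfl fun j _ => ?_
    rw [← SlashAction.slash_mul, alMat_mul_heckeMatrix hqN, SlashAction.slash_mul, slash_scalGL]

end TraceFormula

section NewSubspace

variable {N q : ℕ} [NeZero N] [Fact q.Prime]

/-- If `Tr (W_q h) = 0` then `U_q h = - W_q h`. -/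
theorem heckeU_eq_neg_wLin (hqN : q.Coprime N) (h : CuspForm (Gamma0 (N * q)) 2)
    (h2 : trLin N q 2 (wLin N hqN 2 h) = 0) :
    heckeU 2 q (⇑h) = -⇑(wLin N hqN 2 h) := by
  have h3 := coe_trLin_eq hqN (wLin N hqN 2 h)
  rw [h2, wLin_wLin hqN h] at h3
  have h4 : (0 : ℍ → ℂ) = ⇑(wLin N hqN 2 h) + heckeU 2 q ⇑h := by
    rw [← h3]; rfl
  exact eq_neg_of_add_eq_zero_right h4.symm

/-- If `Tr h = 0` then `U_q (W_q h) = - h`. -/
theorem heckeU_wLin_eq_neg (hqN : q.Coprime N) (h : CuspForm (Gamma0 (N * q)) 2)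
    (h1 : trLin N q 2 h = 0) :
    heckeU 2 q (⇑(wLin N hqN 2 h)) = -⇑h := by
  have h3 := coe_trLin_eq hqN h
  rw [h1] at h3
  have h4 : (0 : ℍ → ℂ) = ⇑h + heckeU 2 q ⇑(wLin N hqN 2 h) := by
    rw [← h3]; rfl
  exact eq_neg_of_add_eq_zero_right h4.symm

/-- **`U_q ^ 2 = 1` on the `q`-new subspace** `ker Tr ∩ ker (Tr ∘ W_q)`. -/
theorem heckeU_heckeU_of_tr_eq_zero (hqN : q.Coprime N) (h : CuspForm (Gamma0 (N * q)) 2)
    (h1 : trLin N q 2 h = 0) (h2 : trLin N q 2 (wLin N hqN 2 h) = 0) :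
    heckeU 2 q (heckeU 2 q ⇑h) = ⇑h := by
  rw [heckeU_eq_neg_wLin hqN h h2, heckeU_neg, heckeU_wLin_eq_neg hqN h h1, neg_neg]

theorem heckeU_heckeU_of_mem_sNew (hqN : q.Coprime N) {h : CuspForm (Gamma0 (N * q)) 2}
    (hh : h ∈ sNew N hqN) : heckeU 2 q (heckeU 2 q ⇑h) = ⇑h :=
  heckeU_heckeU_of_tr_eq_zero hqN h ((mem_sNew N hqN).mp hh).1 ((mem_sNew N hqN).mp hh).2

theorem heckeU_eq_neg_wLin_of_mem_sNew (hqN : q.Coprime N) {h : CuspForm (Gamma0 (N * q)) 2}
    (hh : h ∈ sNew N hqN) : heckeU 2 q (⇑h) = -⇑(wLin N hqN 2 h) :=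
  heckeU_eq_neg_wLin hqN h ((mem_sNew N hqN).mp hh).2

/-- `S_new` is stable under `W_q`. -/
theorem wLin_mem_sNew (hqN : q.Coprime N) {h : CuspForm (Gamma0 (N * q)) 2}
    (hh : h ∈ sNew N hqN) : wLin N hqN 2 h ∈ sNew N hqN := by
  rw [mem_sNew] at hh ⊢
  exact ⟨hh.2, by rw [wLin_wLin hqN h]; exact hh.1⟩

end NewSubspace

end Fermat.Agent.LNew
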